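import Fermat.Agent.CFT.Coh.Basic

/-!
# Equivariant homomorphisms out of stable subgroups of induced lattices

Equivariant homomorphisms on a stable subgroup containing `p P` extend up to norms
(`exists_norm_extend`). When `P` is induced they are norms (`exists_eq_normOn`).
-/

set_option autoImplicit false
set_option linter.unusedSectionVars false

noncomputable section

namespace Fermat.Agent.CFT

open groupCohomology

variable {H P X : Type*} [Group H] [AddCommGroup P] [DistribMulAction H P]
variable [AddCommGroup X] [DistribMulAction H X]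

/-- A subgroup of `P` stable under `H`. -/
def IsStable (H : Type*) [Group H] [DistribMulAction H P] (S : AddSubgroup P) : Prop :=
  ∀ (h : H), ∀ s ∈ S, h • s ∈ S

variable {S : AddSubgroup P} (hS : IsStable H S)

/-- The action of `h` on a stable subgroup. -/
def smulS (h : H) (s : S) : S := ⟨h • (s : P), hS h s s.2⟩

@[simp]
theorem coe_smulS (h : H) (s : S) : (smulS hS h s : P) = h • (s : P) := rfl

theorem smulS_add (h : H) (s t : S) : smulS hS h (s + t) = smulS hS h s + smulS hS h t :=
  Subtype.ext (smul_add h (s : P) (t : P))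

theorem smulS_smulS (g h : H) (s : S) : smulS hS g (smulS hS h s) = smulS hS (g * h) s :=
  Subtype.ext (smul_smul g h (s : P))

/-- Conjugate of a homomorphism on a stable subgroup. -/
def conjOn (h : H) (φ : S →+ X) : S →+ X :=
  AddMonoidHom.mk' (fun s => h • φ (smulS hS h⁻¹ s)) fun s t => by
    rw [smulS_add, map_add, smul_add]

@[simp]
theorem conjOn_apply (h : H) (φ : S →+ X) (s : S) :
    conjOn hS h φ s = h • φ (smulS hS h⁻¹ s) := rfl

/-- Norm of a homomorphism on a stable subgroup. -/
def normOn [Fintype H] (φ : S →+ X) : S →+ X := ∑ h : H, conjOn hS h φ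

theorem normOn_apply [Fintype H] (φ : S →+ X) (s : S) :
    normOn hS φ s = ∑ h : H, h • φ (smulS hS h⁻¹ s) := by
  simp [normOn]

/-- Equivariance of a homomorphism on a stable subgroup. -/
def IsEquivariantOn (f : S →+ X) : Prop := ∀ (h : H) (s : S), f (smulS hS h s) = h • f s

theorem isEquivariantOn_normOn [Fintype H] (φ : S →+ X) : IsEquivariantOn hS (normOn hS φ) := by
  intro g s
  rw [normOn_apply, normOn_apply, Finset.smul_sum]
  refine Fintype.sum_equiv (Equiv.mulLeft g⁻¹) _ _ fun h => ?_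
  show h • φ (smulS hS h⁻¹ (smulS hS g s)) = g • (g⁻¹ * h) • φ (smulS hS (g⁻¹ * h)⁻¹ s)
  rw [smul_smul, mul_inv_cancel_left, smulS_smulS, mul_inv_rev, inv_inv]

theorem normOn_add [Fintype H] (φ ψ : S →+ X) :
    normOn hS (φ + ψ) = normOn hS φ + normOn hS ψ := by
  ext s
  simp [normOn_apply, smul_add, Finset.sum_add_distrib]

/-- Extend an equivariant homomorphism one step. -/
theorem exists_extend_step {p : ℕ} [hp : Fact p.Prime] (f : S →+ X) (hf : IsEquivariantOn hS f)
    (v : P) (hv : v ∉ S) (hpv : p • v ∈ S) (hvf : ∀ h : H, h • v - v ∈ S) (x : X)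
    (hpx : p • x = f ⟨p • v, hpv⟩) (hx : ∀ h : H, h • x - x = f ⟨h • v - v, hvf h⟩) :
    ∃ (S' : AddSubgroup P) (hS' : IsStable H S') (g : S' →+ X) (hle : S ≤ S'),
      v ∈ S' ∧ IsEquivariantOn hS' g ∧ ∀ s : S, g (AddSubgroup.inclusion hle s) = f s := by
  let π : S × ℤ →+ P := AddMonoidHom.coprod S.subtype (zmultiplesHom P v)
  let F : S × ℤ →+ X := AddMonoidHom.coprod f (zmultiplesHom X x)
  have hker : ∀ a : S × ℤ, π a = 0 → F a = 0 := by
    rintro ⟨s, m⟩ h
    simp only [π, AddMonoidHom.coprod_apply, AddSubgroup.coe_subtype, zmultiplesHom_apply] at h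
    have hm : m • v ∈ S := by
      rw [add_eq_zero_iff_eq_neg'.mp h]; exact neg_mem s.2
    have hdvd : (p : ℤ) ∣ m := by
      by_contra hnd
      obtain ⟨a, b, hab⟩ : IsCoprime (p : ℤ) m :=
        (Nat.prime_iff_prime_int.mp hp.out).coprime_iff_not_dvd.mpr hnd
      refine hv ?_
      have : v = a • (p • v) + b • (m • v) := by
        rw [← natCast_zsmul v p, smul_smul, smul_smul, ← add_smul, hab, one_smul]
      rw [this]
      exact add_mem (S.zsmul_mem hpv a) (S.zsmul_mem hm b)
    obtain ⟨t, rfl⟩ := hdvd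
    have hs : s = -(t • (⟨p • v, hpv⟩ : S)) := Subtype.ext (by
      rw [AddSubgroup.coe_neg, AddSubgroup.coe_zsmul, eq_neg_iff_add_eq_zero]
      rw [mul_comm, mul_smul, natCast_zsmul] at h
      exact h)
    simp only [F, AddMonoidHom.coprod_apply, zmultiplesHom_apply, hs, map_neg, map_zsmul]
    rw [mul_comm, mul_smul, natCast_zsmul, hpx, neg_add_cancel]
  let g : π.range →+ X :=
    AddMonoidHom.liftOfSurjective π.rangeRestrict π.rangeRestrict_surjective
      ⟨F, fun a ha => AddMonoidHom.mem_ker.mpr (hker a (by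
        have := congr_arg Subtype.val (AddMonoidHom.mem_ker.mp ha); simpa using this))⟩
  have hg : ∀ (a : S × ℤ), g ⟨π a, a, rfl⟩ = F a := fun a =>
    AddMonoidHom.liftOfRightInverse_comp_apply π.rangeRestrict _ _ ⟨F, _⟩ a
  have hle : S ≤ π.range := fun s hs => ⟨(⟨s, hs⟩, 0), by simp [π]⟩
  have hact : ∀ (h : H) (a : S × ℤ), h • π a =
      π (smulS hS h a.1 + a.2 • ⟨h • v - v, hvf h⟩, a.2) := by
    rintro h ⟨s, m⟩
    simp only [π, AddMonoidHom.coprod_apply, AddSubgroup.coe_subtype, zmultiplesHom_apply,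
      AddSubgroup.coe_add, AddSubgroup.coe_zsmul, coe_smulS, smul_add, smul_sub, smul_comm h m v]
    abel
  have hS' : IsStable H π.range := by
    rintro h _ ⟨a, rfl⟩
    exact ⟨_, (hact h a).symm⟩
  refine ⟨π.range, hS', g, hle, ⟨(0, 1), by simp [π]⟩, ?_, fun s => ?_⟩
  · rintro h ⟨_, a, rfl⟩
    have e : smulS hS' h ⟨π a, a, rfl⟩ = ⟨π _, _, rfl⟩ := Subtype.ext (hact h a)
    rw [e, hg, hg]
    simp only [F, AddMonoidHom.coprod_apply, zmultiplesHom_apply, map_add, map_zsmul, smul_add,
      hf h a.1, ← hx h, smul_sub, smul_comm h a.2 x]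
    abel
  · have e : AddSubgroup.inclusion hle s = ⟨π (s, 0), _, rfl⟩ := Subtype.ext (by simp [π])
    rw [e, hg]
    simp [F]

section Free

variable {p : ℕ} [hp : Fact p.Prime]

theorem free_subgroup [Module.Free ℤ P] [Module.Finite ℤ P] (S : AddSubgroup P) :
    Module.Free ℤ S := by
  obtain ⟨n, b⟩ := Submodule.basisOfPid (Module.Free.chooseBasis ℤ P) (AddSubgroup.toIntSubmodule S)
  let e : (AddSubgroup.toIntSubmodule S) ≃+ S :=
    { toFun := fun x => ⟨x.1, x.2⟩, invFun := fun x => ⟨x.1, x.2⟩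
      left_inv := fun _ => rfl, right_inv := fun _ => rfl, map_add' := fun _ _ => rfl }
  exact Module.Free.of_basis (b.map e.toIntLinearEquiv)

/-- A coordinate functional not divisible by `p` at an element outside `p S`. -/
theorem exists_functional [Module.Free ℤ P] [Module.Finite ℤ P] (s : S)
    (hs : ∀ t : S, p • t ≠ s) : ∃ χ : S →+ ℤ, ¬ (p : ℤ) ∣ χ s := by
  have := free_subgroup S
  let b := Module.Free.chooseBasis ℤ S
  by_contra h
  push Not at h
  have hdiv : ∀ i, (p : ℤ) ∣ b.repr s i := fun i => h (b.coord i).toAddMonoidHom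
  refine hs (b.repr.symm ((b.repr s).mapRange (fun z => z / (p : ℤ)) (by simp))) ?_
  apply b.repr.injective
  rw [map_nsmul, LinearEquiv.apply_symm_apply]
  ext i
  rw [Finsupp.smul_apply, Finsupp.mapRange_apply, nsmul_eq_mul]
  exact Int.mul_ediv_cancel' (hdiv i)

variable [Fintype H]

/-- One step of the norm extension lemma. -/
theorem exists_norm_step [Module.Free ℤ P] [Module.Finite ℤ P] (h1 : H1Zero H X) (hN : NormSurj H X) (f : S →+ X)
    (hf : IsEquivariantOn hS f) (v : P) (hv : v ∉ S) (hpv : p • v ∈ S)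
    (hvf : ∀ h : H, h • v - v ∈ S) :
    ∃ (φ : S →+ X) (S' : AddSubgroup P) (hS' : IsStable H S') (g : S' →+ X) (hle : S ≤ S'),
      v ∈ S' ∧ IsEquivariantOn hS' g ∧
        ∀ s : S, g (AddSubgroup.inclusion hle s) = f s - normOn hS φ s := by
  let d : H → S := fun h => ⟨h • v - v, hvf h⟩
  have hd : ∀ g h, d (g * h) = smulS hS g (d h) + d g := fun g h => Subtype.ext (by
    simp [d, smul_sub, mul_smul])
  obtain ⟨y, hy⟩ := h1 (fun h => f (d h)) fun g h => by
    show f (d (g * h)) = g • f (d h) + f (d g)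
    rw [hd, map_add, hf]
  let s₀ : S := ⟨p • v, hpv⟩
  set z := f s₀ - p • y with hzdef
  obtain ⟨w, hw⟩ := hN z fun h => by
    have e : smulS hS h s₀ = s₀ + p • d h := Subtype.ext (by
      simp [s₀, d, smul_sub, smul_comm h p v])
    have hyh : f (d h) = h • y - y := (hy h).symm
    rw [hzdef, smul_sub, ← hf, e, map_add, map_nsmul, hyh, smul_sub, smul_comm h p y]
    abel
  obtain ⟨χ, hχ⟩ := exists_functional (p := p) s₀ fun t ht => hv (by
    have h0 : (p : ℤ) • ((t : P) - v) = 0 := by
      rw [natCast_zsmul, smul_sub, sub_eq_zero]; exact congr_arg Subtype.val ht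
    have h1 : (t : P) = v := by
      rw [← sub_eq_zero]
      exact (smul_eq_zero.mp h0).resolve_left (Int.natCast_ne_zero.mpr hp.out.ne_zero)
    exact h1 ▸ t.2)
  obtain ⟨t, a, hat⟩ : IsCoprime (p : ℤ) (χ s₀) :=
    (Nat.prime_iff_prime_int.mp hp.out).coprime_iff_not_dvd.mpr hχ
  let φ : S →+ X := (zmultiplesHom X w).comp (a • χ)
  let Y : X := ∑ h : H, h • φ (d h⁻¹)
  have hNd : ∀ g, normOn hS φ (d g) = g • Y - Y := by
    intro g
    have e : ∀ h : H, smulS hS h⁻¹ (d g) = d (h⁻¹ * g) - d h⁻¹ := fun h => by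
      rw [hd]; abel
    simp only [normOn_apply, e, map_sub, smul_sub, Finset.sum_sub_distrib]
    congr 1
    rw [Finset.smul_sum]
    refine Fintype.sum_equiv (Equiv.mulLeft g⁻¹) _ _ fun h => ?_
    show h • φ (d (h⁻¹ * g)) = g • (g⁻¹ * h) • φ (d (g⁻¹ * h)⁻¹)
    rw [smul_smul, mul_inv_cancel_left, mul_inv_rev, inv_inv]
  have hNs : normOn hS φ s₀ = (a * χ s₀) • z + p • Y := by
    have e : ∀ h : H, smulS hS h⁻¹ s₀ = s₀ + p • d h⁻¹ := fun h => Subtype.ext (by
      simp [s₀, d, smul_sub, smul_comm h⁻¹ p v])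
    simp only [normOn_apply, e, map_add, map_nsmul, smul_add, Finset.sum_add_distrib]
    congr 1
    · rw [← hw, normSum, Finset.smul_sum]
      refine Finset.sum_congr rfl fun h _ => ?_
      show h • (zmultiplesHom X w) ((a • χ) s₀) = _
      rw [AddMonoidHom.smul_apply, zmultiplesHom_apply, smul_eq_mul, smul_comm]
    · rw [Finset.smul_sum]
      exact Finset.sum_congr rfl fun h _ => smul_comm _ _ _
  let f' := f - normOn hS φ
  have hf' : IsEquivariantOn hS f' := fun h s => by
    simp only [f', AddMonoidHom.sub_apply, hf h s, isEquivariantOn_normOn hS φ h s, smul_sub]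
  have hzinv : ∀ h : H, h • z = z := fun h => by rw [← hw]; exact smul_normSum h w
  have hpx' : p • (y - Y + t • z) = f' ⟨p • v, hpv⟩ := by
    show p • (y - Y + t • z) = f s₀ - normOn hS φ s₀
    have hfs : f s₀ = z + p • y := by simp [hzdef]
    rw [hNs, hfs, smul_add, smul_sub, ← natCast_zsmul (t • z) p, smul_smul,
      show ((p : ℤ) * t) = 1 - a * χ s₀ by linear_combination hat, sub_smul, one_smul]
    abel
  have hx' : ∀ h : H, h • (y - Y + t • z) - (y - Y + t • z) = f' ⟨h • v - v, hvf h⟩ := by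
    intro h
    show h • (y - Y + t • z) - (y - Y + t • z) = f (d h) - normOn hS φ (d h)
    have hyh : f (d h) = h • y - y := (hy h).symm
    rw [hNd, hyh, smul_add, smul_comm h t z, hzinv, smul_sub]
    abel
  obtain ⟨S', hS', g, hle, hvS', hgeq, hgf⟩ :=
    exists_extend_step (p := p) hS f' hf' v hv hpv hvf (y - Y + t • z) hpx' hx'
  exact ⟨φ, S', hS', g, hle, hvS', hgeq, fun s => hgf s⟩

/-- Equivariant homomorphisms on a stable finite-index subgroup extend up to norms. -/
theorem exists_norm_extend [Module.Free ℤ P] [Module.Finite ℤ P] (hH : IsPGroup p H)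
    (h1 : H1Zero H X) (hN : NormSurj H X) (hpS : ∀ x : P, p • x ∈ S) (f : S →+ X)
    (hf : IsEquivariantOn hS f) :
    ∃ (φ : S →+ X) (g : P →+ X), (∀ (h : H) (x : P), g (h • x) = h • g x) ∧
      ∀ s : S, g s = f s - normOn hS φ s := by
  classical
  have hfin : ∀ T : AddSubgroup P, S ≤ T → Finite (P ⧸ T) := by
    intro T hT
    have : AddGroup.FG (P ⧸ T) := Module.Finite.iff_addGroup_fg.mp
      (Module.Finite.of_surjective (QuotientAddGroup.mk' T).toIntLinearMap
        (QuotientAddGroup.mk'_surjective T))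
    refine AddCommGroup.finite_of_fg_isAddTorsion _ fun x => ?_
    obtain ⟨x, rfl⟩ := QuotientAddGroup.mk_surjective x
    refine isOfFinAddOrder_iff_nsmul_eq_zero.mpr ⟨p, hp.out.pos, ?_⟩
    rw [← QuotientAddGroup.mk_nsmul, QuotientAddGroup.eq_zero_iff]
    exact hT (hpS x)
  suffices key : ∀ (n : ℕ) (T : AddSubgroup P) (hT : IsStable H T) (_ : ∀ x : P, p • x ∈ T)
      (_ : S ≤ T), Nat.card (P ⧸ T) = n → ∀ (f : T →+ X), IsEquivariantOn hT f →
      ∃ (φ : T →+ X) (g : P →+ X), (∀ (h : H) (x : P), g (h • x) = h • g x) ∧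
        ∀ s : T, g s = f s - normOn hT φ s from key _ S hS hpS le_rfl rfl f hf
  intro n
  induction n using Nat.strong_induction_on with
  | _ n ih =>
  intro T hT hpT hle hn f hf
  have := hfin T hle
  rcases eq_or_ne T ⊤ with rfl | hne
  · refine ⟨0, f.comp (AddSubgroup.topEquiv.symm.toAddMonoidHom), fun h x => ?_, fun s => ?_⟩
    · exact hf h ⟨x, trivial⟩
    · have h0 : normOn hT (0 : (⊤ : AddSubgroup P) →+ X) s = 0 := by simp [normOn_apply]
      rw [h0, sub_zero]; rfl
  let : MulAction H (P ⧸ T) :=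
    { smul := fun h => QuotientAddGroup.map T T (DistribSMul.toAddMonoidHom P h)
        (fun s hs => hT h s hs)
      one_smul := fun x => by
        obtain ⟨x, rfl⟩ := QuotientAddGroup.mk_surjective x
        exact congr_arg _ (one_smul H x)
      mul_smul := fun a b x => by
        obtain ⟨x, rfl⟩ := QuotientAddGroup.mk_surjective x
        exact congr_arg _ (mul_smul a b x) }
  have hdvd : p ∣ Nat.card (P ⧸ T) := by
    have : Nontrivial (P ⧸ T) := QuotientAddGroup.nontrivial_iff.mpr hne
    obtain ⟨x, hx⟩ := exists_ne (0 : P ⧸ T)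
    have hx' : addOrderOf x = p := addOrderOf_eq_prime (by
      obtain ⟨x, rfl⟩ := QuotientAddGroup.mk_surjective x
      rw [← QuotientAddGroup.mk_nsmul, QuotientAddGroup.eq_zero_iff]
      exact hpT x) hx
    exact hx' ▸ addOrderOf_dvd_natCard x
  obtain ⟨b, hb, hb0⟩ := hH.exists_fixed_point_of_prime_dvd_card_of_fixed_point _ hdvd
    (a := (0 : P ⧸ T)) (fun h => by
      show QuotientAddGroup.map T T _ _ (0 : P ⧸ T) = 0
      exact map_zero _)
  obtain ⟨v, rfl⟩ := QuotientAddGroup.mk_surjective b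
  have hv : v ∉ T := fun h => hb0 ((QuotientAddGroup.eq_zero_iff v).mpr h).symm
  obtain ⟨φ, T', hT', g, hle', hvT', hg, hgf⟩ :=
    exists_norm_step hT h1 hN f hf v hv (hpT v) (fun h => by
      rw [← QuotientAddGroup.eq_zero_iff, QuotientAddGroup.mk_sub, sub_eq_zero]
      exact hb h)
  have hlt : Nat.card (P ⧸ T') < n := by
    rw [← hn]
    have := hfin T' (hle.trans hle')
    refine lt_of_le_of_ne (Nat.card_le_card_of_surjective
      (QuotientAddGroup.map T T' (AddMonoidHom.id P) hle') fun x => ?_) fun hc => ?_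
    · obtain ⟨x, rfl⟩ := QuotientAddGroup.mk_surjective x
      exact ⟨x, rfl⟩
    · have hbij := (Nat.bijective_iff_surjective_and_card
        (QuotientAddGroup.map T T' (AddMonoidHom.id P) hle')).mpr ⟨fun x => by
          obtain ⟨x, rfl⟩ := QuotientAddGroup.mk_surjective x
          exact ⟨x, rfl⟩, hc.symm⟩
      refine hv ((QuotientAddGroup.eq_zero_iff v).mp (hbij.1 ?_))
      rw [map_zero]
      exact (QuotientAddGroup.eq_zero_iff v).mpr hvT'
  obtain ⟨φ', G, hG, hGf⟩ := ih _ hlt T' hT' (fun x => hle' (hpT x)) (hle.trans hle') rfl g hg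
  refine ⟨φ + φ'.comp (AddSubgroup.inclusion hle'), G, hG, fun s => ?_⟩
  have h2 := hGf (AddSubgroup.inclusion hle' s)
  rw [hgf] at h2
  rw [normOn_add, AddMonoidHom.add_apply, ← sub_sub]
  refine h2.trans ?_
  congr 1
  simp only [normOn_apply]
  rfl

/-- With `P` induced, every equivariant homomorphism on such a subgroup is a norm. -/
theorem exists_eq_normOn [Module.Free ℤ P] [Module.Finite ℤ P] (hH : IsPGroup p H)
    (h1 : H1Zero H X) (hN : NormSurj H X) (hP : IsInduced H P) (hpS : ∀ x : P, p • x ∈ S)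
    (f : S →+ X) (hf : IsEquivariantOn hS f) : ∃ φ : S →+ X, normOn hS φ = f := by
  obtain ⟨φ, g, hg, hgf⟩ := exists_norm_extend hS hH h1 hN hpS f hf
  obtain ⟨T, hT⟩ := hP
  refine ⟨φ + (g.comp T).comp S.subtype, ?_⟩
  ext s
  rw [normOn_add, AddMonoidHom.add_apply]
  have : normOn hS ((g.comp T).comp S.subtype) s = g s := by
    conv_rhs => rw [← hT s, map_sum]
    rw [normOn_apply]
    exact Finset.sum_congr rfl fun h _ => (hg h _).symm
  rw [this, hgf]
  abel

end Free

section Minus

variable [Fintype H] {p : ℕ} [hp : Fact p.Prime]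

/-- Homomorphisms of norm zero on such a subgroup are sums of `h φ - φ`. -/
theorem exists_eq_sum_conjOn_sub [Module.Free ℤ P] [Module.Finite ℤ P] (hH : IsPGroup p H)
    (hN : NormSurj H X) (hK : NormKer H X) (hP : IsInduced H P)
    (hpS : ∀ x : P, p • x ∈ S) (φ : S →+ X) (hφ : normOn hS φ = 0) :
    ∃ η : H → (S →+ X), φ = ∑ h : H, (conjOn hS h (η h) - η h) := by
  classical
  -- a presentation of `X` by an induced module
  let F := (H × X) →₀ ℤ
  let : DistribMulAction H F :=
    { smul := fun h => Finsupp.mapDomain (fun q => (h * q.1, q.2))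
      one_smul := fun x => by
        show Finsupp.mapDomain _ x = x
        simp only [one_mul, Prod.mk.eta]
        exact Finsupp.mapDomain_id
      mul_smul := fun a b x => by
        show Finsupp.mapDomain _ x = Finsupp.mapDomain _ (Finsupp.mapDomain _ x)
        rw [← Finsupp.mapDomain_comp]
        simp only [Function.comp_def, mul_assoc]
      smul_zero := fun h => Finsupp.mapDomain_zero
      smul_add := fun h x y => Finsupp.mapDomain_add }
  have hsingle : ∀ (h : H) (q : H × X) (m : ℤ),
      h • (Finsupp.single q m : F) = Finsupp.single (h * q.1, q.2) m :=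
    fun h q m => Finsupp.mapDomain_single
  let π : F →+ X := Finsupp.liftAddHom fun q => zmultiplesHom X (q.1 • q.2)
  have hπs : ∀ (q : H × X) (m : ℤ), π (Finsupp.single q m) = m • (q.1 • q.2) := fun q m => by
    show (Finsupp.liftAddHom fun q => zmultiplesHom X (q.1 • q.2)) (Finsupp.single q m) = _
    rw [Finsupp.liftAddHom_apply_single, zmultiplesHom_apply]
  have hπ : ∀ (h : H) (x : F), π (h • x) = h • π x := by
    intro h x
    induction x using Finsupp.induction_linear with
    | zero => simp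
    | add a b ha hb => rw [smul_add, map_add, map_add, ha, hb, smul_add]
    | single q m => rw [hsingle, hπs, hπs, mul_smul, smul_comm]
  have hπsurj : ∀ x, π (Finsupp.single (1, x) 1) = x := fun x => by simp [hπs]
  let T : F →+ F := Finsupp.filterAddHom fun q : H × X => q.1 = 1
  have hT : ∀ x : F, ∑ h : H, h • T (h⁻¹ • x) = x := by
    intro x
    induction x using Finsupp.induction_linear with
    | zero => simp
    | add a b ha hb => simp only [smul_add, map_add, Finset.sum_add_distrib, ha, hb]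
    | single q m =>
      rw [Finset.sum_eq_single q.1]
      · rw [hsingle, inv_mul_cancel]
        have : T (Finsupp.single (1, q.2) m) = Finsupp.single (1, q.2) m :=
          Finsupp.filter_single_of_pos (p := fun q : H × X => q.1 = 1) rfl
        rw [this, hsingle, mul_one]
      · intro h _ hne
        rw [hsingle]
        have : T (Finsupp.single (h⁻¹ * q.1, q.2) m) = 0 :=
          Finsupp.filter_single_of_neg (p := fun q : H × X => q.1 = 1) (by
            simp only [inv_mul_eq_one]; exact hne)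
        rw [this, smul_zero]
      · simp
  have hF : IsInduced H F := ⟨T, hT⟩
  let R : AddSubgroup F := π.ker
  have hR : ∀ (h : H), ∀ x ∈ R, h • x ∈ R := fun h x hx => by
    rw [AddMonoidHom.mem_ker] at hx ⊢; rw [hπ, hx, smul_zero]
  let : DistribMulAction H R :=
    { smul := fun h x => ⟨h • (x : F), hR h x x.2⟩
      one_smul := fun x => Subtype.ext (one_smul H (x : F))
      mul_smul := fun a b x => Subtype.ext (mul_smul a b (x : F))
      smul_zero := fun h => Subtype.ext (smul_zero h)
      smul_add := fun h x y => Subtype.ext (smul_add h (x : F) (y : F)) }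
  have hRcoe : ∀ (h : H) (x : R), ((h • x : R) : F) = h • (x : F) := fun _ _ => rfl
  have hRnorm : ∀ x : R, ((normSum H R x : R) : F) = normSum H F x := fun x => by
    simp only [normSum, AddSubgroup.val_finsetSum, hRcoe]
  have hπnorm : ∀ x : F, π (normSum H F x) = normSum H X (π x) := fun x => by
    simp only [normSum, map_sum, hπ]
  have hR1 : H1Zero H R := by
    intro c hc
    obtain ⟨x, hx⟩ := hF.h1Zero (fun h => (c h : F)) fun g h => by
      show ((c (g * h) : R) : F) = _
      rw [hc g h]; rfl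
    have hfix : ∀ h : H, h • π x = π x := fun h => by
      rw [← sub_eq_zero, ← hπ, ← map_sub, hx]
      exact (c h).2
    obtain ⟨a, ha⟩ := hN _ hfix
    set x' := normSum H F (Finsupp.single (1, a) 1)
    refine ⟨⟨x - x', ?_⟩, fun h => Subtype.ext ?_⟩
    · rw [AddMonoidHom.mem_ker, map_sub, hπnorm, hπsurj, ha, sub_self]
    · show h • (x - x') - (x - x') = (c h : F)
      rw [smul_sub, smul_normSum, sub_sub_sub_cancel_right, hx]
  have hRN : NormSurj H R := by
    intro r hr
    obtain ⟨u, hu⟩ := hF.normSurj (r : F) fun h => congr_arg Subtype.val (hr h)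
    have hu0 : π u ∈ augSpan H X := hK _ (by rw [← hπnorm, hu]; exact r.2)
    suffices key : ∀ y ∈ augSpan H X, ∃ z : F, π z = y ∧ normSum H F z = 0 by
      obtain ⟨z, hz, hz0⟩ := key _ hu0
      refine ⟨⟨u - z, ?_⟩, Subtype.ext ?_⟩
      · rw [AddMonoidHom.mem_ker, map_sub, hz, sub_self]
      · rw [hRnorm, normSum_sub, hu, hz0, sub_zero]
    intro y hy
    refine AddSubgroup.closure_induction ?_ ?_ ?_ ?_ hy
    · rintro _ ⟨g, a, rfl⟩
      refine ⟨g • Finsupp.single (1, a) 1 - Finsupp.single (1, a) 1, ?_, ?_⟩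
      · rw [map_sub, hπ, hπsurj]
      · rw [normSum_sub, normSum_smul, sub_self]
    · exact ⟨0, map_zero _, by simp [normSum]⟩
    · rintro a b _ _ ⟨z, hz, hz0⟩ ⟨z', hz', hz0'⟩
      exact ⟨z + z', by rw [map_add, hz, hz'], by rw [normSum_add, hz0, hz0', add_zero]⟩
    · rintro a _ ⟨z, hz, hz0⟩
      refine ⟨-z, by rw [map_neg, hz], ?_⟩
      simp only [normSum, smul_neg, Finset.sum_neg_distrib, neg_eq_zero] at hz0 ⊢
      exact hz0
  -- lift `φ`
  have := free_subgroup S
  let b := Module.Free.chooseBasis ℤ S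
  let φ' : S →+ F := (b.constr ℤ fun i => Finsupp.single (1, φ (b i)) 1).toAddMonoidHom
  have hφ' : π.comp φ' = φ := by
    have : (π.comp φ').toIntLinearMap = φ.toIntLinearMap := b.ext fun i => by
      show π (b.constr ℤ (fun i => Finsupp.single (1, φ (b i)) 1) (b i)) = φ (b i)
      rw [Module.Basis.constr_basis, hπsurj]
    exact AddMonoidHom.ext fun s => LinearMap.congr_fun this s
  have hn : ∀ s, normOn hS φ' s ∈ R := fun s => by
    rw [AddMonoidHom.mem_ker, normOn_apply, map_sum]
    rw [← AddMonoidHom.zero_apply (M := S) (N := X) s, ← hφ, normOn_apply]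
    refine Finset.sum_congr rfl fun h _ => ?_
    rw [hπ, ← hφ']; rfl
  obtain ⟨θ, hθ⟩ := exists_eq_normOn hS hH hR1 hRN hP hpS ((normOn hS φ').codRestrict R hn)
    (fun h s => Subtype.ext (isEquivariantOn_normOn hS φ' h s))
  let ψ : S →+ F := φ' - R.subtype.comp θ
  have hψ : ∀ s, normOn hS ψ s = 0 := fun s => by
    have := congr_arg Subtype.val (DFunLike.congr_fun hθ s)
    rw [AddMonoidHom.codRestrict_apply, normOn_apply, AddSubgroup.val_finsetSum] at this
    simp only [normOn_apply, ψ, AddMonoidHom.sub_apply, smul_sub, Finset.sum_sub_distrib,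
      AddMonoidHom.comp_apply, AddSubgroup.coe_subtype]
    rw [← normOn_apply, sub_eq_zero]
    exact this.symm
  refine ⟨fun g => π.comp (T.comp (conjOn hS g⁻¹ ψ)), ?_⟩
  ext s
  have hT0 : ∑ g : H, π (T (conjOn hS g⁻¹ ψ s)) = 0 := by
    rw [← map_sum π, ← map_sum T]
    have : ∑ g : H, conjOn hS g⁻¹ ψ s = 0 := by
      rw [← hψ s, normOn_apply]
      exact Fintype.sum_equiv (Equiv.inv H) _ _ fun g => rfl
    rw [this, map_zero, map_zero]
  simp only [AddMonoidHom.finsetSum_apply, AddMonoidHom.sub_apply, Finset.sum_sub_distrib]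
  rw [show ∑ g : H, (π.comp (T.comp (conjOn hS g⁻¹ ψ))) s = 0 from hT0, sub_zero]
  have hθ0 : π (θ s : F) = 0 := (θ s).2
  calc φ s = π (ψ s) := by
        rw [← hφ', AddMonoidHom.comp_apply]
        simp only [ψ, AddMonoidHom.sub_apply, AddMonoidHom.comp_apply, AddSubgroup.coe_subtype,
          map_sub, hθ0, sub_zero]
    _ = ∑ g : H, π (g • T (g⁻¹ • ψ s)) := by rw [← map_sum, hT]
    _ = _ := Finset.sum_congr rfl fun g _ => by
        rw [hπ]
        show g • π (T (g⁻¹ • ψ s)) =
          g • π (T (g⁻¹ • ψ (smulS hS g⁻¹⁻¹ (smulS hS g⁻¹ s))))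
        rw [smulS_smulS, inv_inv, mul_inv_cancel,
          show smulS hS 1 s = s from Subtype.ext (one_smul H (s : P))]

end Minus

end Fermat.Agent.CFT
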