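import Fermat.Agent.CFT.Coh.Splitting

/-!
# Dévissage of `H²` to steps of index `p`

A `2`-cocycle trivial on a normal subgroup with trivial `H¹` descends to the quotient
(`exists_descend₂`). The main result is `StepAxioms.isClassFormation`: the axioms for steps of
index `p` and a class of full order at the Sylow subgroups give a class formation.
-/

set_option autoImplicit false
set_option linter.unusedSectionVars false
set_option linter.style.haveILetI false

noncomputable section

namespace Fermat.Agent.CFT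

open groupCohomology

/-- The group of `2`-coboundaries. -/
def cobound₂ (G A : Type*) [Group G] [AddCommGroup A] [DistribMulAction G A] :
    AddSubgroup (G × G → A) where
  carrier := {c | IsCoboundary₂ c}
  add_mem' {c d} hc hd := by
    obtain ⟨x, hx⟩ := hc
    obtain ⟨y, hy⟩ := hd
    refine ⟨x + y, fun g h => ?_⟩
    simp only [Pi.add_apply, smul_add, ← hx g h, ← hy g h]
    abel
  zero_mem' := ⟨0, fun g h => by simp⟩
  neg_mem' {c} hc := by
    obtain ⟨x, hx⟩ := hc
    refine ⟨-x, fun g h => ?_⟩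
    simp only [Pi.neg_apply, smul_neg, ← hx g h]
    abel

/-- The differential of a `1`-cochain. -/
def dOne {G A : Type*} [Group G] [AddCommGroup A] [DistribMulAction G A] (b : G → A) : G × G → A :=
  fun gh => gh.1 • b gh.2 - b (gh.1 * gh.2) + b gh.1

theorem dOne_mem {G A : Type*} [Group G] [AddCommGroup A] [DistribMulAction G A] (b : G → A) :
    dOne b ∈ cobound₂ G A := ⟨b, fun _ _ => rfl⟩

theorem isCocycle₂_dOne {G A : Type*} [Group G] [AddCommGroup A] [DistribMulAction G A]
    (b : G → A) : IsCocycle₂ (dOne b) := fun g h j => by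
  simp only [dOne, smul_add, smul_sub, smul_smul, mul_assoc]
  abel

theorem isCocycle₂_sub {G A : Type*} [Group G] [AddCommGroup A] [DistribMulAction G A]
    {c d : G × G → A} (hc : IsCocycle₂ c) (hd : IsCocycle₂ d) :
    IsCocycle₂ (c - d) := fun g h j => by
  simp only [Pi.sub_apply, smul_sub, sub_add_sub_comm, hc g h j, hd g h j]

theorem isCocycle₂_zsmul {G A : Type*} [Group G] [AddCommGroup A] [DistribMulAction G A]
    {c : G × G → A} (hc : IsCocycle₂ c) (k : ℤ) : IsCocycle₂ (k • c) := fun g h j => by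
  simp only [Pi.smul_apply, smul_comm g k, ← smul_add, hc g h j]

section Descend

variable {G Q A B : Type*} [Group G] [Group Q] [AddCommGroup A] [DistribMulAction G A]
  [AddCommGroup B] [DistribMulAction Q B] (π : G →* Q) (hπ : Function.Surjective π)

include hπ in
/-- A `2`-cocycle trivial on a normal subgroup with trivial `H¹` is, up to a coboundary,
invariant under it. -/
theorem exists_invariant_cocycle (h1 : H1Zero π.ker A) (c : G × G → A) (hc : IsCocycle₂ c)
    (hres : IsCoboundary₂ fun x : π.ker × π.ker => c ((x.1 : G), (x.2 : G))) :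
    ∃ b : G → A, ∀ g h g' h', π g = π g' → π h = π h' →
      (c - dOne b) (g, h) = (c - dOne b) (g', h') ∧
        ∀ n : π.ker, (n : G) • (c - dOne b) (g, h) = (c - dOne b) (g, h) := by
  classical
  let rep : Q → G := fun q => if q = 1 then 1 else Function.surjInv hπ q
  have hrep : ∀ q, π (rep q) = q := fun q => by
    by_cases hq : q = 1
    · simp [rep, hq]
    · simp [rep, hq, Function.surjInv_eq hπ]
  have hmem : ∀ g, (rep (π g))⁻¹ * g ∈ π.ker := fun g => by
    simp [MonoidHom.mem_ker, hrep]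
  let ν : G → π.ker := fun g => ⟨(rep (π g))⁻¹ * g, hmem g⟩
  have hνk : ∀ n : π.ker, ν n = n := fun n => Subtype.ext (by
    simp [ν, rep, MonoidHom.mem_ker.mp n.2])
  -- make the cocycle vanish on the kernel
  obtain ⟨y, hy⟩ := hres
  let b₁ : G → A := fun g => y (ν g)
  set c₁ := c - dOne b₁ with hc₁def
  have hc₁ : IsCocycle₂ c₁ := isCocycle₂_sub hc (isCocycle₂_dOne b₁)
  have hk₁ : ∀ m n : π.ker, c₁ ((m : G), (n : G)) = 0 := fun m n => by
    have := hy m n
    simp only [c₁, b₁, Pi.sub_apply, dOne, ← Subgroup.coe_mul, hνk, ← this]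
    rw [show m • y n = (m : G) • y n from rfl, sub_self]
  -- make it vanish for right arguments in the kernel
  let b₂ : G → A := fun g => c₁ (rep (π g), (ν g : G))
  have hb₂k : ∀ n : π.ker, b₂ n = 0 := fun n => by
    simp only [b₂, hνk, rep, MonoidHom.mem_ker.mp n.2, if_true]
    exact hk₁ 1 n
  set c₂ := c₁ + dOne b₂ with hc₂def
  have hc₂ : IsCocycle₂ c₂ := fun g h j => by
    simp only [c₂, Pi.add_apply, smul_add]
    have e1 := hc₁ g h j
    have e2 := isCocycle₂_dOne b₂ g h j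
    calc c₁ (g * h, j) + dOne b₂ (g * h, j) + (c₁ (g, h) + dOne b₂ (g, h))
        = (c₁ (g * h, j) + c₁ (g, h)) + (dOne b₂ (g * h, j) + dOne b₂ (g, h)) := by abel
      _ = _ := by rw [e1, e2]; abel
  have hr₂ : ∀ (g : G) (n : π.ker), c₂ (g, (n : G)) = 0 := fun g n => by
    have hm := hc₁ (rep (π g)) (ν g) n
    rw [hk₁, smul_zero, zero_add, show rep (π g) * (ν g : G) = g by simp [ν]] at hm
    have hpn : π (g * n) = π g := by rw [map_mul, MonoidHom.mem_ker.mp n.2, mul_one]
    have hνn : ν (g * n) = ν g * n := Subtype.ext (by simp [ν, hpn, mul_assoc])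
    simp only [c₂, Pi.add_apply, dOne, hb₂k, smul_zero, zero_sub]
    simp only [b₂, hpn, hνn, Subgroup.coe_mul, ← hm]
    abel
  have hrinv : ∀ (g h : G) (n : π.ker), c₂ (g, h * n) = c₂ (g, h) := fun g h n => by
    have := hc₂ g h n
    rw [hr₂, hr₂, smul_zero, zero_add, zero_add] at this
    exact this.symm
  -- make it vanish for left arguments in the kernel
  have hy₂ : ∀ q : Q, ∃ z : A, ∀ n : π.ker, (n : G) • z - z = c₂ ((n : G), rep q) := fun q => by
    refine h1 (fun n => c₂ ((n : G), rep q)) fun m n => ?_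
    have e := hc₂ (m : G) n (rep q)
    rw [hr₂] at e
    have hconj : (rep q)⁻¹ * n * rep q ∈ π.ker := by
      simp [MonoidHom.mem_ker, MonoidHom.mem_ker.mp n.2]
    have e2 : (n : G) * rep q = rep q * ((⟨_, hconj⟩ : π.ker) : G) := by simp [mul_assoc]
    rw [e2, hrinv, add_zero] at e
    exact e
  choose z hz using hy₂
  let b₃ : G → A := fun g => if π g = 1 then 0 else z (π g)
  have hb₃k : ∀ n : π.ker, b₃ n = 0 := fun n => if_pos (MonoidHom.mem_ker.mp n.2)
  have hb₃inv : ∀ g h, π g = π h → b₃ g = b₃ h := fun g h e => by simp [b₃, e]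
  set c₃ := c₂ - dOne b₃ with hc₃def
  have hc₃ : IsCocycle₂ c₃ := isCocycle₂_sub hc₂ (isCocycle₂_dOne b₃)
  have hr₃ : ∀ (g : G) (n : π.ker), c₃ (g, (n : G)) = 0 := fun g n => by
    simp only [c₃, Pi.sub_apply, dOne, hr₂, hb₃k, smul_zero]
    rw [hb₃inv (g * n) g (by rw [map_mul, MonoidHom.mem_ker.mp n.2, mul_one])]
    abel
  have hl₃ : ∀ (n : π.ker) (g : G), c₃ ((n : G), g) = 0 := fun n g => by
    have e : c₂ ((n : G), g) = c₂ ((n : G), rep (π g)) := by
      conv_lhs => rw [show g = rep (π g) * (ν g : G) by simp [ν]]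
      exact hrinv _ _ _
    simp only [c₃, Pi.sub_apply, dOne, hb₃k, add_zero, e]
    rw [hb₃inv ((n : G) * g) g (by rw [map_mul, MonoidHom.mem_ker.mp n.2, one_mul])]
    by_cases hg : π g = 1
    · simp only [b₃, hg, if_true, smul_zero, sub_zero]
      simpa [rep] using hr₂ (n : G) 1
    · simp only [b₃, hg, if_false, hz, sub_self]
  have hrinv₃ : ∀ (g h : G) (n : π.ker), c₃ (g, h * n) = c₃ (g, h) := fun g h n => by
    have := hc₃ g h n
    rw [hr₃, hr₃, smul_zero, zero_add, zero_add] at this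
    exact this.symm
  have hlinv₃ : ∀ (g h : G) (n : π.ker), c₃ (g * n, h) = c₃ (g, h) := fun g h n => by
    have := hc₃ g n h
    rw [hr₃, hl₃, smul_zero, add_zero, zero_add] at this
    rw [this]
    have hconj : h⁻¹ * n * h ∈ π.ker := by
      simp [MonoidHom.mem_ker, MonoidHom.mem_ker.mp n.2]
    conv_lhs => rw [show (n : G) * h = h * ((⟨_, hconj⟩ : π.ker) : G) by simp [mul_assoc]]
    exact hrinv₃ _ _ _
  refine ⟨b₁ - b₂ + b₃, fun g h g' h' eg eh => ?_⟩
  have key : c - dOne (b₁ - b₂ + b₃) = c₃ := by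
    funext x
    simp only [c₃, c₂, c₁, Pi.sub_apply, Pi.add_apply, dOne, smul_add, smul_sub]
    abel
  rw [key]
  refine ⟨?_, fun n => ?_⟩
  · have hg : g⁻¹ * g' ∈ π.ker := by simp [MonoidHom.mem_ker, eg]
    have hh : h⁻¹ * h' ∈ π.ker := by simp [MonoidHom.mem_ker, eh]
    rw [show g' = g * ((⟨_, hg⟩ : π.ker) : G) by simp, show h' = h * ((⟨_, hh⟩ : π.ker) : G) by simp,
      hlinv₃, hrinv₃]
  · have := hc₃ (n : G) g h
    rw [hl₃, hl₃, add_zero, add_zero] at this
    rw [← this]
    have hconj : g⁻¹ * n * g ∈ π.ker := by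
      simp [MonoidHom.mem_ker, MonoidHom.mem_ker.mp n.2]
    conv_lhs => rw [show (n : G) * g = g * ((⟨_, hconj⟩ : π.ker) : G) by simp [mul_assoc]]
    exact hlinv₃ _ _ _

variable (ι : B →+ A) (hι : Function.Injective ι)
  (hinv : ∀ (g : G) (x : B), g • ι x = ι (π g • x))
  (hfix : ∀ a : A, (∀ n : π.ker, (n : G) • a = a) → ∃ x, ι x = a)

include hπ hι hinv hfix in
/-- A `2`-cocycle trivial on a normal subgroup with trivial `H¹` comes from the quotient. -/
theorem exists_descend₂ (h1 : H1Zero π.ker A) (c : G × G → A) (hc : IsCocycle₂ c)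
    (hres : IsCoboundary₂ fun x : π.ker × π.ker => c ((x.1 : G), (x.2 : G))) :
    ∃ c₀ : Q × Q → B, IsCocycle₂ c₀ ∧
      (c - fun gh => ι (c₀ (π gh.1, π gh.2))) ∈ cobound₂ G A := by
  obtain ⟨b, hb⟩ := exists_invariant_cocycle π hπ h1 c hc hres
  let s := Function.surjInv hπ
  have hs : ∀ q, π (s q) = q := Function.surjInv_eq hπ
  choose c₀ hc₀ using fun q : Q × Q =>
    hfix _ (hb (s q.1) (s q.2) _ _ rfl rfl).2
  have hval : ∀ g h, ι (c₀ (π g, π h)) = (c - dOne b) (g, h) := fun g h =>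
    (hc₀ _).trans (hb _ _ _ _ (hs _) (hs _)).1
  refine ⟨c₀, fun x y z => hι ?_, ?_⟩
  · obtain ⟨x, rfl⟩ := hπ x
    obtain ⟨y, rfl⟩ := hπ y
    obtain ⟨z, rfl⟩ := hπ z
    simp only [map_add, ← hinv, ← map_mul, hval]
    exact (isCocycle₂_sub hc (isCocycle₂_dOne b)) x y z
  · have e : (c - fun gh => ι (c₀ (π gh.1, π gh.2))) = dOne b := by
      funext gh
      show c gh - ι (c₀ (π gh.1, π gh.2)) = _
      rw [hval]
      simp
    rw [e]
    exact dOne_mem b

end Descend

section Steps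

variable {G : Type*} [Group G] {A : Type*} [AddCommGroup A] [DistribMulAction G A]

/-- `K` has index `p` in the `p`-group `H` and `g` generates the quotient. -/
structure IsStep (p : ℕ) (H K : Subgroup G) (g : G) : Prop where
  le : K ≤ H
  mem : g ∈ H
  notMem : g ∉ K
  isPGroup : IsPGroup p H
  relIndex : K.relIndex H = p

/-- The norm of a step. -/
def stepNorm (p : ℕ) (g : G) (a : A) : A := ∑ j ∈ Finset.range p, g ^ j • a

/-- The class field axioms for steps of index `p`. -/
structure StepAxioms (p : ℕ) (G A : Type*) [Group G] [AddCommGroup A] [DistribMulAction G A] :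
    Prop where
  h1 : ∀ (H K : Subgroup G) (g : G), IsStep p H K g → ∀ a : A, (∀ k ∈ K, k • a = a) →
    stepNorm p g a = 0 → ∃ b : A, (∀ k ∈ K, k • b = b) ∧ g • b - b = a
  index_le : ∀ (H K : Subgroup G) (g : G), IsStep p H K g → ∃ x₀ : A, (∀ h ∈ H, h • x₀ = x₀) ∧
    ∀ x : A, (∀ h ∈ H, h • x = x) →
      ∃ (m : ℤ) (b : A), (∀ k ∈ K, k • b = b) ∧ x = m • x₀ + stepNorm p g b

variable {p : ℕ} [hp : Fact p.Prime] [Finite G]

theorem exists_isStep {H : Subgroup G} (hH : IsPGroup p H) [Nontrivial H] :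
    ∃ (K : Subgroup G) (g : G), IsStep p H K g := by
  obtain ⟨χ, hχ⟩ := exists_hom_zmod hH
  obtain ⟨g, hg⟩ := hχ (Multiplicative.ofAdd 1)
  refine ⟨χ.ker.map H.subtype, (g : G), ⟨Subgroup.map_subtype_le _, g.2, ?_, hH, ?_⟩⟩
  · rintro ⟨k, hk, e⟩
    obtain rfl : k = g := Subtype.ext e
    rw [SetLike.mem_coe, MonoidHom.mem_ker, hg] at hk
    exact one_ne_zero (α := ZMod p) (Multiplicative.ofAdd.injective hk)
  · rw [Subgroup.relIndex, Subgroup.subgroupOf, Subgroup.comap_map_eq_self_of_injective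
      H.subtype_injective, Subgroup.index_ker, MonoidHom.range_eq_top.mpr hχ, Subgroup.card_top,
      Nat.card_congr Multiplicative.toAdd, Nat.card_zmod]

theorem IsStep.exists_char {H K : Subgroup G} {g : G} (hs : IsStep p H K g) :
    ∃ χ : H →* Multiplicative (ZMod p), Function.Surjective χ ∧ χ.ker = K.subgroupOf H ∧
      χ ⟨g, hs.mem⟩ = Multiplicative.ofAdd 1 := by
  have hidx : (K.subgroupOf H).index = p := hs.relIndex
  obtain ⟨n, hn⟩ := IsPGroup.iff_card.mp hs.isPGroup
  have hn0 : n ≠ 0 := by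
    rintro rfl
    have h1 := (K.subgroupOf H).card_mul_index
    rw [hidx, hn, pow_zero] at h1
    exact hp.out.one_lt.ne' (Nat.eq_one_of_mul_eq_one_left h1)
  haveI : (K.subgroupOf H).Normal := Subgroup.normal_of_index_eq_minFac_card (by
    rw [hidx, hn, Nat.Prime.pow_minFac hp.out hn0])
  have hq : Nat.card (H ⧸ K.subgroupOf H) = Nat.card (Multiplicative (ZMod p)) := by
    rw [← Subgroup.index, hidx, Nat.card_congr Multiplicative.toAdd, Nat.card_zmod]
  haveI : IsCyclic (H ⧸ K.subgroupOf H) :=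
    isCyclic_of_prime_card (p := p) (by rw [← Subgroup.index, hidx])
  let χ₀ : H →* Multiplicative (ZMod p) :=
    (mulEquivOfCyclicCardEq hq).toMonoidHom.comp (QuotientGroup.mk' _)
  have hker₀ : χ₀.ker = K.subgroupOf H := by
    ext x
    simp [χ₀]
  set t := Multiplicative.toAdd (χ₀ ⟨g, hs.mem⟩) with htdef
  have ht : t ≠ 0 := fun h => hs.notMem (by
    have : (⟨g, hs.mem⟩ : H) ∈ χ₀.ker :=
      MonoidHom.mem_ker.mpr (Multiplicative.toAdd.injective h)
    rwa [hker₀, Subgroup.mem_subgroupOf] at this)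
  let χ : H →* Multiplicative (ZMod p) :=
    (AddMonoidHom.toMultiplicative (AddMonoidHom.mulLeft t⁻¹)).comp χ₀
  have hinj : Function.Injective (AddMonoidHom.toMultiplicative (AddMonoidHom.mulLeft t⁻¹)) :=
    fun a b e => Multiplicative.toAdd.injective
      (mul_left_cancel₀ (inv_ne_zero ht) (congr_arg Multiplicative.toAdd e))
  have hg : χ ⟨g, hs.mem⟩ = Multiplicative.ofAdd 1 := by
    show Multiplicative.ofAdd (t⁻¹ * t) = _
    rw [inv_mul_cancel₀ ht]
  refine ⟨χ, fun x => ⟨⟨g, hs.mem⟩ ^ (Multiplicative.toAdd x).val, ?_⟩, ?_, hg⟩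
  · rw [map_pow, hg, ← ofAdd_nsmul, nsmul_one, ZMod.natCast_zmod_val, ofAdd_toAdd]
  · rw [← hker₀]
    ext x
    simp only [MonoidHom.mem_ker, χ, MonoidHom.comp_apply]
    exact ⟨fun h => hinj (h.trans (map_one _).symm), fun h => by rw [h, map_one]⟩

/-- The carry cocycle of a step. -/
def carry {H : Subgroup G} (χ : H →* Multiplicative (ZMod p)) (x : A) : H × H → A :=
  fun ab => (((Multiplicative.toAdd (χ ab.1)).val + (Multiplicative.toAdd (χ ab.2)).val) / p) • x

theorem carry_add_arg {H : Subgroup G} (χ : H →* Multiplicative (ZMod p)) (x y : A) :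
    carry χ (x + y) = carry χ x + carry χ y := by
  funext ab; simp [carry, smul_add]

theorem carry_zsmul {H : Subgroup G} (χ : H →* Multiplicative (ZMod p)) (m : ℤ) (x : A) :
    carry χ (m • x) = m • carry χ x := by
  funext ab; simp [carry, smul_comm m]

theorem IsStep.pow_mem {H K : Subgroup G} {g : G} (hs : IsStep p H K g) : g ^ p ∈ K := by
  obtain ⟨χ, -, hker, hg⟩ := hs.exists_char
  have : (⟨g, hs.mem⟩ : H) ^ p ∈ χ.ker := by
    rw [MonoidHom.mem_ker, map_pow, hg, ← ofAdd_nsmul, nsmul_one, ZMod.natCast_self]; rfl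
  rwa [hker, Subgroup.mem_subgroupOf, SubmonoidClass.coe_pow] at this

theorem IsStep.isPGroup_left {H K : Subgroup G} {g : G} (hs : IsStep p H K g) : IsPGroup p K :=
  hs.isPGroup.to_le hs.le

theorem IsStep.card_eq {H K : Subgroup G} {g : G} (hs : IsStep p H K g) :
    Nat.card H = p * Nat.card K := by
  rw [← hs.relIndex, mul_comm]
  exact (Subgroup.card_mul_index (K.subgroupOf H)).symm.trans
    (congr_arg (fun c => c * _) (Nat.card_congr (Subgroup.subgroupOfEquivOfLe hs.le).toEquiv))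

theorem h1Zero_subgroupOf {H K : Subgroup G} (hle : K ≤ H) (h : H1Zero K A) :
    H1Zero (K.subgroupOf H) A :=
  h.of_equiv (Subgroup.subgroupOfEquivOfLe hle) fun _ _ => rfl

/-- All `p`-subgroups have trivial `H¹`. -/
theorem StepAxioms.h1Zero (hA : StepAxioms p G A) (H : Subgroup G) (hH : IsPGroup p H) :
    H1Zero H A := by
  suffices key : ∀ (n : ℕ) (H : Subgroup G), Nat.card H = n → IsPGroup p H → H1Zero H A from
    key _ H rfl hH
  intro n
  induction n using Nat.strong_induction_on with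
  | _ n ih =>
  intro H hn hH c hc
  rcases subsingleton_or_nontrivial H with hs | hs
  · refine ⟨0, fun h => ?_⟩
    rw [Subsingleton.elim h 1, map_one_of_isCocycle₁ hc]
    simp
  obtain ⟨K, g, hs⟩ := exists_isStep hH
  obtain ⟨χ, hχ, hker, hg⟩ := hs.exists_char
  have hK : H1Zero K A := ih _ (by
    rw [← hn, hs.card_eq]
    exact lt_mul_left Nat.card_pos hp.out.one_lt) K rfl hs.isPGroup_left
  obtain ⟨y, hy⟩ := h1Zero_subgroupOf hs.le hK (fun k => c (k : H)) fun a b => hc a b
  let c' : H → A := fun h => c h - (h • y - y)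
  have hc' : IsCocycle₁ c' := fun a b => by
    simp only [c', hc a b, mul_smul, smul_sub]
    abel
  have hk : ∀ k : H, (k : G) ∈ K → c' k = 0 := fun k hk => by
    have := hy ⟨k, Subgroup.mem_subgroupOf.mpr hk⟩
    simp only [c', ← this]
    exact sub_self _
  set γ : H := ⟨g, hs.mem⟩
  have hpow : ∀ j : ℕ, c' (γ ^ j) = ∑ i ∈ Finset.range j, g ^ i • c' γ := fun j => by
    induction j with
    | zero => rw [pow_zero, map_one_of_isCocycle₁ hc', Finset.sum_range_zero]
    | succ j ihj =>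
      rw [pow_succ, hc', ihj, Finset.sum_range_succ, add_comm]
      congr 1
  have hfix : ∀ k ∈ K, k • c' γ = c' γ := fun k hkK => by
    set k' : H := ⟨k, hs.le hkK⟩
    have e := hc' k' γ
    rw [hk k' hkK, add_zero] at e
    have hmem : ((γ⁻¹ * k' * γ : H) : G) ∈ K := by
      rw [← Subgroup.mem_subgroupOf, ← hker, MonoidHom.mem_ker]
      have : χ k' = 1 := by
        rw [← MonoidHom.mem_ker, hker, Subgroup.mem_subgroupOf]; exact hkK
      simp [this]
    have e2 : c' (k' * γ) = c' γ := by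
      rw [show k' * γ = γ * (γ⁻¹ * k' * γ) by group, hc', hk _ hmem, smul_zero, zero_add]
    rw [e2] at e
    exact e.symm
  obtain ⟨b, hb, hgb⟩ := hA.h1 H K g hs (c' γ) hfix (by
    show ∑ i ∈ Finset.range p, g ^ i • c' γ = 0
    rw [← hpow]
    exact hk _ (by rw [SubmonoidClass.coe_pow]; exact hs.pow_mem))
  refine ⟨b + y, fun h => ?_⟩
  set j := (Multiplicative.toAdd (χ h)).val
  have hr : ((γ ^ j)⁻¹ * h : H) ∈ χ.ker := by
    rw [MonoidHom.mem_ker, map_mul, map_inv, map_pow, hg, ← ofAdd_nsmul, nsmul_one,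
      ZMod.natCast_zmod_val, ofAdd_toAdd, inv_mul_cancel]
  rw [hker, Subgroup.mem_subgroupOf] at hr
  have hgj : ∀ i : ℕ, c' (γ ^ i) = g ^ i • b - b := fun i => by
    rw [hpow]
    induction i with
    | zero => simp
    | succ i ihi =>
      rw [Finset.sum_range_succ, ihi, ← hgb, smul_sub, smul_smul, ← pow_succ]
      abel
  have : c' h = h • b - b := by
    conv_lhs => rw [show h = γ ^ j * ((γ ^ j)⁻¹ * h) by group]
    rw [hc', hk _ hr, smul_zero, zero_add, hgj]
    congr 1
    conv_rhs => rw [show h = γ ^ j * ((γ ^ j)⁻¹ * h) by group]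
    rw [mul_smul, Subgroup.smul_def, Subgroup.smul_def, hb _ hr, SubmonoidClass.coe_pow]
  simp only [c'] at this
  rw [smul_add, ← sub_eq_zero]
  rw [← sub_eq_zero] at this
  rw [← neg_eq_zero, ← this]
  abel

theorem carry_stepNorm_mem {H K : Subgroup G} {g : G} (hs : IsStep p H K g)
    (χ : H →* Multiplicative (ZMod p)) (hker : χ.ker = K.subgroupOf H)
    (hg : χ ⟨g, hs.mem⟩ = Multiplicative.ofAdd 1) (w : A) (hw : ∀ k ∈ K, k • w = w) :
    carry χ (stepNorm p g w) ∈ cobound₂ H A := by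
  let i : H → ℕ := fun a => (Multiplicative.toAdd (χ a)).val
  have hi_lt : ∀ a, i a < p := fun a => ZMod.val_lt _
  have hi_mul : ∀ a b, i (a * b) = (i a + i b) % p := fun a b => by
    simp only [i, map_mul, toAdd_mul, ZMod.val_add]
  let P : ℕ → A := fun m => ∑ j ∈ Finset.range m, g ^ j • w
  have hP : ∀ m m', P (m + m') = P m + g ^ m • P m' := fun m m' => by
    simp only [P, Finset.sum_range_add, Finset.smul_sum, smul_smul, ← pow_add]
  set γ : H := ⟨g, hs.mem⟩
  have hact : ∀ (a : H) (j : ℕ), a • (g ^ j • w) = g ^ (i a) • g ^ j • w := fun a j => by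
    have hr : (γ ^ j)⁻¹ * ((γ ^ i a)⁻¹ * a) * γ ^ j ∈ χ.ker := by
      have h0 : (γ ^ i a)⁻¹ * a ∈ χ.ker := by
        rw [MonoidHom.mem_ker, map_mul, map_inv, map_pow, hg, ← ofAdd_nsmul, nsmul_one,
          ZMod.natCast_zmod_val, ofAdd_toAdd, inv_mul_cancel]
      simpa using (inferInstance : χ.ker.Normal).conj_mem _ h0 (γ ^ j)⁻¹
    rw [hker, Subgroup.mem_subgroupOf] at hr
    conv_rhs => rw [← hw _ hr]
    simp only [smul_smul, Subgroup.smul_def]
    congr 1
    simp [mul_assoc, γ]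
  refine ⟨fun a => P (i a), fun a b => ?_⟩
  have e : a • P (i b) = g ^ i a • P (i b) := by
    simp only [P, Finset.smul_sum, hact]
  show a • P (i b) - P (i (a * b)) + P (i a) = ((i a + i b) / p) • P p
  rw [e, hi_mul, ← eq_sub_iff_add_eq', ← sub_eq_zero]
  have h2 := hP (i a) (i b)
  rcases Nat.lt_or_ge (i a + i b) p with hlt | hge
  · rw [Nat.mod_eq_of_lt hlt, Nat.div_eq_of_lt hlt, zero_smul, h2]
    abel
  · have hlt : i a + i b - p < p := by have := hi_lt a; have := hi_lt b; omega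
    have hd : (i a + i b) / p = 1 := Nat.div_eq_of_lt_le (by omega) (by omega)
    rw [Nat.mod_eq_sub_mod hge, Nat.mod_eq_of_lt hlt, hd, one_smul]
    have h3 := hP p (i a + i b - p)
    rw [show p + (i a + i b - p) = i a + i b by omega, h2] at h3
    have h4 : g ^ p • P (i a + i b - p) = P (i a + i b - p) := by
      simp only [P, Finset.smul_sum, smul_smul, ← pow_add]
      refine Finset.sum_congr rfl fun j _ => ?_
      rw [add_comm, pow_add, mul_smul, hw _ hs.pow_mem]
    rw [h4] at h3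
    rw [← sub_eq_zero] at h3
    rw [← h3]
    abel

theorem exists_carry_congr {H K : Subgroup G} {g : G} (hs : IsStep p H K g)
    (hK : H1Zero K A) (χ : H →* Multiplicative (ZMod p)) (hχ : Function.Surjective χ)
    (hker : χ.ker = K.subgroupOf H) (hg : χ ⟨g, hs.mem⟩ = Multiplicative.ofAdd 1)
    (c : H × H → A) (hc : IsCocycle₂ c)
    (hres : IsCoboundary₂ fun x : K × K => c (⟨x.1, hs.le x.1.2⟩, ⟨x.2, hs.le x.2.2⟩)) :
    ∃ x : A, (∀ h ∈ H, h • x = x) ∧ c - carry χ x ∈ cobound₂ H A := by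
  have hK' : H1Zero χ.ker A := by
    rw [hker]; exact h1Zero_subgroupOf hs.le hK
  have hres' : IsCoboundary₂ fun x : χ.ker × χ.ker => c ((x.1 : H), (x.2 : H)) := by
    obtain ⟨y, hy⟩ := hres
    have hm : ∀ k : χ.ker, ((k : H) : G) ∈ K := fun k => by
      rw [← Subgroup.mem_subgroupOf, ← hker]; exact k.2
    exact ⟨fun k => y ⟨_, hm k⟩, fun a b => hy ⟨_, hm a⟩ ⟨_, hm b⟩⟩
  obtain ⟨b₀, hb₀⟩ := exists_invariant_cocycle χ hχ hK' c hc hres'
  set c' := c - dOne b₀ with hc'def
  have hc' : IsCocycle₂ c' := isCocycle₂_sub hc (isCocycle₂_dOne b₀)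
  let i : H → ℕ := fun a => (Multiplicative.toAdd (χ a)).val
  have hi_lt : ∀ a, i a < p := fun a => ZMod.val_lt _
  have hi_mul : ∀ a b, i (a * b) = (i a + i b) % p := fun a b => by
    simp only [i, map_mul, toAdd_mul, ZMod.val_add]
  set γ : H := ⟨g, hs.mem⟩
  have hγ : ∀ j : ℕ, χ (γ ^ j) = Multiplicative.ofAdd (j : ZMod p) := fun j => by
    rw [map_pow, hg, ← ofAdd_nsmul, nsmul_one]
  have hrep : ∀ a, χ (γ ^ i a) = χ a := fun a => by
    rw [hγ, ZMod.natCast_zmod_val, ofAdd_toAdd]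
  have hper : ∀ j b, c' (γ ^ (j + p), b) = c' (γ ^ j, b) := fun j b =>
    (hb₀ _ _ _ _ (by rw [hγ, hγ]; simp) rfl).1
  have h10 : ∀ a : H, c' (a, 1) = a • c' (1, 1) := fun a => map_one_snd_of_isCocycle₂ hc' a
  set z := c' (1, 1) with hz
  let Q : ℕ → A := fun m => ∑ j ∈ Finset.range m, c' (γ ^ j, γ)
  set x := Q p
  have hQper : ∀ m, Q (m + p) = Q m + x := fun m => by
    induction m with
    | zero => simp [Q, x]
    | succ m ihm =>
      rw [show m + 1 + p = (m + p) + 1 by omega]
      simp only [Q, Finset.sum_range_succ, hper] at ihm ⊢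
      rw [ihm]; abel
  have hgen : ∀ (j m : ℕ), c' (γ ^ j, γ ^ m) =
      Q (j + m) - Q j - γ ^ j • Q m + γ ^ j • z := fun j m => by
    induction m with
    | zero => simp [Q, h10]
    | succ m ihm =>
      have e := hc' (γ ^ j) (γ ^ m) γ
      rw [ihm, ← pow_add, ← pow_succ] at e
      have e' : c' (γ ^ j, γ ^ (m + 1)) = c' (γ ^ (j + m), γ) +
          (Q (j + m) - Q j - γ ^ j • Q m + γ ^ j • z) - γ ^ j • c' (γ ^ m, γ) := by
        rw [e]; abel
      rw [e']
      simp only [Q, Finset.sum_range_succ, ← add_assoc j, smul_add]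
      abel
  have hxγ : γ • x = x := by
    have e := hgen 1 p
    have e1 : c' (γ ^ 1, γ ^ p) = c' (γ ^ 1, 1) := (hb₀ _ _ _ _ rfl (by rw [hγ]; simp)).1
    rw [e1, h10, add_comm 1 p, show p + 1 = 1 + p by omega, hQper, pow_one] at e
    have e2 : Q 1 + x - Q 1 - γ • x = 0 := by
      rw [← sub_eq_zero] at e
      rw [← neg_eq_zero, ← e]
      simp only [x]; abel
    rw [add_sub_cancel_left, sub_eq_zero] at e2
    exact e2.symm
  have hfixk : ∀ (k : H) (a b : H), (k : H) ∈ χ.ker → k • c' (a, b) = c' (a, b) := fun k a b hk =>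
    (hb₀ a b a b rfl rfl).2 ⟨k, hk⟩
  have hxfix : ∀ h ∈ H, h • x = x := fun h hh => by
    set a : H := ⟨h, hh⟩
    have hk : (γ ^ i a)⁻¹ * a ∈ χ.ker := by
      rw [MonoidHom.mem_ker, map_mul, map_inv, hrep, inv_mul_cancel]
    show a • x = x
    conv_lhs => rw [show a = γ ^ i a * ((γ ^ i a)⁻¹ * a) by group, mul_smul]
    rw [show ((γ ^ i a)⁻¹ * a) • x = x by
      simp only [x, Q, Finset.smul_sum, hfixk _ _ _ hk]]
    generalize i a = j
    induction j with
    | zero => rw [pow_zero, one_smul]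
    | succ j ihj => rw [pow_succ, mul_smul, hxγ, ihj]
  refine ⟨x, hxfix, ?_⟩
  let B : H → A := fun a => Q (i a) - z
  have key : c - carry χ x = dOne b₀ - dOne B := by
    funext ab
    obtain ⟨a, b⟩ := ab
    have hcc : c' (a, b) = c' (γ ^ i a, γ ^ i b) := ((hb₀ _ _ _ _ (hrep a) (hrep b)).1).symm
    have hact : a • B b = γ ^ i a • Q (i b) - γ ^ i a • z := by
      rw [← smul_sub]
      have hk : (γ ^ i a)⁻¹ * a ∈ χ.ker := by
        rw [MonoidHom.mem_ker, map_mul, map_inv, hrep, inv_mul_cancel]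
      conv_lhs => rw [show a = γ ^ i a * ((γ ^ i a)⁻¹ * a) by group, mul_smul]
      congr 1
      simp only [B, Q, z, smul_sub, Finset.smul_sum, hfixk _ _ _ hk]
    have hd : dOne B (a, b) = a • B b - B (a * b) + B a := rfl
    have hcar : carry χ x (a, b) = ((i a + i b) / p) • x := rfl
    have h' : c (a, b) = c' (a, b) + dOne b₀ (a, b) := by
      simp [hc'def]
    show c (a, b) - carry χ x (a, b) = dOne b₀ (a, b) - dOne B (a, b)
    rw [h', hcc, hgen, hd, hact, hcar]
    simp only [B, hi_mul]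
    rcases Nat.lt_or_ge (i a + i b) p with hlt | hge
    · rw [Nat.mod_eq_of_lt hlt, Nat.div_eq_of_lt hlt, zero_smul]
      abel
    · have hlt : i a + i b - p < p := by have := hi_lt a; have := hi_lt b; omega
      have hd' : (i a + i b) / p = 1 := Nat.div_eq_of_lt_le (by omega) (by omega)
      rw [Nat.mod_eq_sub_mod hge, Nat.mod_eq_of_lt hlt, hd', one_smul]
      conv_lhs => rw [show i a + i b = i a + i b - p + p by omega, hQper]
      abel
  rw [key]
  exact sub_mem (dOne_mem b₀) (dOne_mem B)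

theorem carry_x_prime_mem {H K : Subgroup G} {g : G} (hs : IsStep p H K g)
    (χ : H →* Multiplicative (ZMod p)) (hker : χ.ker = K.subgroupOf H)
    (hg : χ ⟨g, hs.mem⟩ = Multiplicative.ofAdd 1) (x : A) (hx : ∀ h ∈ H, h • x = x) :
    (p : ℤ) • carry χ x ∈ cobound₂ H A := by
  have e : stepNorm p g x = (p : ℤ) • x := by
    rw [stepNorm, Finset.sum_congr rfl fun j _ => hx _ (pow_mem hs.mem j), Finset.sum_const,
      Finset.card_range, natCast_zsmul]
  rw [← carry_zsmul, ← e]
  exact carry_stepNorm_mem hs χ hker hg x fun k hk => hx k (hs.le hk)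

/-- The classes on a `p`-subgroup are killed by its order. -/
theorem StepAxioms.card_zsmul_mem (hA : StepAxioms p G A) (H : Subgroup G) (hH : IsPGroup p H)
    (c : H × H → A) (hc : IsCocycle₂ c) : (Nat.card H : ℤ) • c ∈ cobound₂ H A := by
  suffices key : ∀ (n : ℕ) (H : Subgroup G), Nat.card H = n → IsPGroup p H →
      ∀ c : H × H → A, IsCocycle₂ c → (n : ℤ) • c ∈ cobound₂ H A from key _ H rfl hH c hc
  intro n
  induction n using Nat.strong_induction_on with
  | _ n ih =>
  intro H hn hH c hc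
  rcases subsingleton_or_nontrivial H with hs | hs
  · refine ⟨fun _ => ((n : ℤ) • c) (1, 1), fun a b => ?_⟩
    rw [Subsingleton.elim a 1, Subsingleton.elim b 1, one_smul, mul_one, sub_self, zero_add]
  obtain ⟨K, g, hs⟩ := exists_isStep hH
  obtain ⟨χ, hχ, hker, hg⟩ := hs.exists_char
  have hlt : Nat.card K < n := by
    rw [← hn, hs.card_eq]; exact lt_mul_left Nat.card_pos hp.out.one_lt
  have hres := ih _ hlt K rfl hs.isPGroup_left
    (fun x => c (⟨x.1, hs.le x.1.2⟩, ⟨x.2, hs.le x.2.2⟩)) fun a b d =>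
      hc ⟨a.1, hs.le a.2⟩ ⟨b.1, hs.le b.2⟩ ⟨d.1, hs.le d.2⟩
  obtain ⟨x, hx, hcx⟩ := exists_carry_congr hs (hA.h1Zero K hs.isPGroup_left) χ hχ hker hg
    ((Nat.card K : ℤ) • c) (isCocycle₂_zsmul hc _) hres
  rw [← hn, hs.card_eq, Nat.cast_mul, mul_smul,
    show (Nat.card K : ℤ) • c = ((Nat.card K : ℤ) • c - carry χ x) + carry χ x from
      (sub_add_cancel _ _).symm, smul_add]
  exact add_mem (AddSubgroup.zsmul_mem _ hcx _) (carry_x_prime_mem hs χ hker hg x hx)

end Steps

/-- The step axioms and a class of the full order at the Sylow subgroups give a class formation. -/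
theorem StepAxioms.isClassFormation {G C : Type*} [Group G] [Fintype G] [AddCommGroup C]
    [DistribMulAction G C] {p : ℕ} [hp : Fact p.Prime] (hA : StepAxioms p G C)
    (u : NormCocycle G C)
    (hu : ∀ P : Sylow p G, ∀ k : ℤ,
      IsCoboundary₂ (fun gh : ↥(P : Subgroup G) × ↥(P : Subgroup G) =>
        k • u.toFun ((gh.1 : G), (gh.2 : G))) →
        (Nat.card (P : Subgroup G) : ℤ) ∣ k) :
    IsClassFormation p u := by
  let uH : ∀ H : Subgroup G, (↥H × ↥H) → C := fun H gh => u.toFun ((gh.1 : G), (gh.2 : G))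
  have huc : ∀ H : Subgroup G, IsCocycle₂ (uH H) := fun H a b d =>
    u.isCocycle (a : G) (b : G) (d : G)
  set m := (Nat.card G).factorization p
  have order : ∀ (j : ℕ) (H : Subgroup G), Nat.card H = p ^ (m - j) → j ≤ m → ∀ k : ℤ,
      k • uH H ∈ cobound₂ H C → (Nat.card H : ℤ) ∣ k := by
    intro j
    induction j with
    | zero =>
      intro H hH _ k hk
      exact hu (Sylow.ofCard H (by rw [hH]; rfl)) k hk
    | succ j ih =>
      intro H hH hj k hk
      obtain ⟨H', hH', hle⟩ := Sylow.exists_subgroup_card_pow_succ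
        (p := p) (n := m - (j + 1))
        ((pow_dvd_pow p (by omega)).trans (Nat.ordProj_dvd (Nat.card G) p)) hH
      have hcard : Nat.card H' = p ^ (m - j) := by rw [hH']; congr 1; omega
      have hp' : IsPGroup p H' := IsPGroup.of_card hH'
      have hidx : H.relIndex H' = p := by
        have e := (H.subgroupOf H').card_mul_index
        rw [Nat.card_congr (Subgroup.subgroupOfEquivOfLe hle).toEquiv, hH, hH', pow_succ] at e
        exact Nat.eq_of_mul_eq_mul_left (pow_pos hp.out.pos _) e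
      obtain ⟨g, hg, hgn⟩ : ∃ g, g ∈ H' ∧ g ∉ H := by
        by_contra hcon
        push Not at hcon
        rw [Subgroup.relIndex_eq_one.mpr hcon] at hidx
        exact hp.out.one_lt.ne hidx
      have hs : IsStep p H' H g := ⟨hle, hg, hgn, hp', hidx⟩
      obtain ⟨χ, hχ, hker, hgχ⟩ := hs.exists_char
      obtain ⟨x, hx, hcx⟩ := exists_carry_congr hs (hA.h1Zero H hs.isPGroup_left) χ hχ hker hgχ
        (k • uH H') (isCocycle₂_zsmul (huc H') k) hk
      have h2 : ((p : ℤ) * k) • uH H' ∈ cobound₂ H' C := by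
        rw [mul_smul, show k • uH H' = (k • uH H' - carry χ x) + carry χ x from
          (sub_add_cancel _ _).symm, smul_add]
        exact add_mem (AddSubgroup.zsmul_mem _ hcx _) (carry_x_prime_mem hs χ hker hgχ x hx)
      have h3 := ih H' hcard (by omega) _ h2
      rw [hs.card_eq, Nat.cast_mul] at h3
      exact Int.dvd_of_mul_dvd_mul_left (Int.natCast_ne_zero.mpr hp.out.ne_zero) h3
  have order' : ∀ H : Subgroup G, IsPGroup p H → ∀ k : ℤ,
      k • uH H ∈ cobound₂ H C → (Nat.card H : ℤ) ∣ k := fun H hH => by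
    obtain ⟨n, hn⟩ := IsPGroup.iff_card.mp hH
    have hle : n ≤ m := (hp.out.pow_dvd_iff_le_factorization Nat.card_pos.ne').mp
      (hn ▸ Subgroup.card_subgroup_dvd_card H)
    exact order (m - n) H (by rw [hn]; congr 1; omega) (by omega)
  have gen : ∀ (n : ℕ) (H : Subgroup G), Nat.card H = n → IsPGroup p H → ∀ c : H × H → C,
      IsCocycle₂ c → ∃ k : ℤ, c - k • uH H ∈ cobound₂ H C := by
    intro n
    induction n using Nat.strong_induction_on with
    | _ n ih =>
    intro H hn hH c hc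
    rcases subsingleton_or_nontrivial H with hs | hs
    · refine ⟨0, fun _ => c (1, 1), fun a b => ?_⟩
      rw [Subsingleton.elim a 1, Subsingleton.elim b 1, one_smul, mul_one, sub_self, zero_add,
        zero_smul, sub_zero]
    obtain ⟨K, g, hs⟩ := exists_isStep hH
    obtain ⟨χ, hχ, hker, hg⟩ := hs.exists_char
    have hlt : Nat.card K < n := by
      rw [← hn, hs.card_eq]; exact lt_mul_left Nat.card_pos hp.out.one_lt
    have hK1 := hA.h1Zero K hs.isPGroup_left
    obtain ⟨k, hk⟩ := ih _ hlt K rfl hs.isPGroup_left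
      (fun x => c (⟨x.1, hs.le x.1.2⟩, ⟨x.2, hs.le x.2.2⟩)) fun a b d =>
      hc ⟨a.1, hs.le a.2⟩ ⟨b.1, hs.le b.2⟩ ⟨d.1, hs.le d.2⟩
    obtain ⟨x, hx, hcx⟩ := exists_carry_congr hs hK1 χ hχ hker hg (c - k • uH H)
      (isCocycle₂_sub hc (isCocycle₂_zsmul (huc H) k)) hk
    obtain ⟨x₀, hx₀, hgen⟩ := hA.index_le H K g hs
    obtain ⟨y, hy, hcy⟩ := exists_carry_congr hs hK1 χ hχ hker hg ((Nat.card K : ℤ) • uH H)
      (isCocycle₂_zsmul (huc H) _)
      (hA.card_zsmul_mem K hs.isPGroup_left (uH K) (huc K))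
    have hlin : ∀ z : C, (∀ h ∈ H, h • z = z) → ∃ m : ℤ,
        carry χ z - m • carry χ x₀ ∈ cobound₂ H C := fun z hz => by
      obtain ⟨m, b, hb, rfl⟩ := hgen z hz
      refine ⟨m, ?_⟩
      rw [carry_add_arg, carry_zsmul, add_sub_cancel_left]
      exact carry_stepNorm_mem hs χ hker hg b hb
    obtain ⟨m₀, hm₀⟩ := hlin y hy
    obtain ⟨m₁, hm₁⟩ := hlin x hx
    have hndvd : ¬ (p : ℤ) ∣ m₀ := by
      rintro ⟨q, rfl⟩
      have h0 : (Nat.card K : ℤ) • uH H ∈ cobound₂ H C := by
        rw [show (Nat.card K : ℤ) • uH H = ((Nat.card K : ℤ) • uH H - carry χ y) +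
          (carry χ y - ((p : ℤ) * q) • carry χ x₀) + q • ((p : ℤ) • carry χ x₀) by
            rw [smul_smul, mul_comm q]; abel]
        exact add_mem (add_mem hcy hm₀)
          (AddSubgroup.zsmul_mem _ (carry_x_prime_mem hs χ hker hg x₀ hx₀) _)
      have := order' H hH _ h0
      rw [hs.card_eq, Int.natCast_dvd_natCast] at this
      have := Nat.le_of_dvd Nat.card_pos this
      have := hp.out.one_lt
      have := Nat.card_pos (α := K)
      nlinarith
    obtain ⟨t, s, hts⟩ : IsCoprime (p : ℤ) m₀ :=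
      (Nat.prime_iff_prime_int.mp hp.out).coprime_iff_not_dvd.mpr hndvd
    refine ⟨k + m₁ * s * Nat.card K, ?_⟩
    rw [show c - (k + m₁ * s * (Nat.card K : ℤ)) • uH H =
      ((c - k • uH H) - carry χ x) + (carry χ x - m₁ • carry χ x₀) +
        (m₁ * t) • ((p : ℤ) • carry χ x₀)
        - (m₁ * s) • (((Nat.card K : ℤ) • uH H - carry χ y) +
            (carry χ y - m₀ • carry χ x₀)) by
      have e : (m₁ * t) • ((p : ℤ) • carry χ x₀) + (m₁ * s) • (m₀ • carry χ x₀) =
          m₁ • carry χ x₀ := by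
        rw [smul_smul, smul_smul, ← add_smul]
        congr 1
        linear_combination m₁ * hts
      rw [sub_add_sub_cancel, smul_add (m₁ * s), smul_sub (m₁ * s), smul_sub (m₁ * s),
        smul_smul (m₁ * s) (Nat.card K : ℤ), add_smul]
      rw [← e]
      abel]
    exact sub_mem (add_mem (add_mem hcx hm₁)
      (AddSubgroup.zsmul_mem _ (carry_x_prime_mem hs χ hker hg x₀ hx₀) _))
      (AddSubgroup.zsmul_mem _ (add_mem hcy hm₀) _)
  exact ⟨fun H hH => hA.h1Zero H hH,
    fun H hH c hc => gen _ H rfl hH c hc,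
    fun H hH k hk => order' H hH k hk⟩

end Fermat.Agent.CFT
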